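/-
ALPHA-MOD (helper9), part 0: small general lemmas on principal divisors, divisor classes and the
action of semilinear automorphisms (CurveP setting, one field).
-/
import Fermat.Agent.Lib.Alpha.KM.Flip
import Fermat.Agent.Lib.T3.Red.Pic
import Fermat.Prelude.Def_AlgebraicCurve_BaseChangeGalois

set_option autoImplicit false
set_option linter.style.haveILetI false
set_option linter.unusedSectionVars false

namespace Fermat.Agent.Alpha

open AlgebraicCurve IntermediateField Fermat.Agent.Curve Fermat.Agent.CurveP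
  Fermat.Agent.Curve.PlaceAux RRAux

variable {K F : Type*} [Field K] [Field F] [Algebra K F] [IsAlgClosed K]
  {x : F} (hx : IsFunctionFieldGen K F x)
  [Algebra.IsSeparable (IntermediateField.adjoin K {x}) F]

include hx

theorem alpm_divOf_mul {f g : F} (hf : f ≠ 0) (hg : g ≠ 0) :
    divOf hx (f * g) = divOf hx f + divOf hx g := by
  ext v
  rw [Finsupp.add_apply, divOf_apply hx (mul_ne_zero hf hg), divOf_apply hx hf, divOf_apply hx hg,
    v.ord_mul hf hg]

theorem alpm_divOf_mem_principal {f : F} (hf : f ≠ 0) :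
    divOf hx f ∈ Divisor.principal (K := K) (F := F) :=
  ⟨f, hf, fun v => divOf_apply hx hf v⟩

theorem alpm_eq_divOf_of_principal {D : Divisor K F}
    (hD : D ∈ Divisor.principal (K := K) (F := F)) : ∃ f : F, f ≠ 0 ∧ D = divOf hx f := by
  obtain ⟨f, hf, hDf⟩ := hD
  refine ⟨f, hf, ?_⟩
  ext v
  rw [hDf v, divOf_apply hx hf]

theorem alpm_smul_divOf (g : SemilinearAut K F) {f : F} (hf : f ≠ 0) :
    g • divOf hx f = divOf hx (g • f) := by
  have hgf : g • f ≠ 0 := by
    rw [SemilinearAut.smul_def]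
    exact (map_ne_zero_iff _ (SemilinearAut.toRingAut g).injective).mpr hf
  ext v
  rw [SemilinearAut.divisor_smul_apply, divOf_apply hx hf, divOf_apply hx hgf]
  have h := SemilinearAut.ord_smul g (g⁻¹ • v) f
  rw [smul_inv_smul] at h
  exact h.symm

omit hx [IsAlgClosed K] in
theorem alpm_smul_nonneg (g : SemilinearAut K F) {D : Divisor K F} (h : 0 ≤ D) : 0 ≤ g • D := by
  intro v
  rw [Finsupp.zero_apply, SemilinearAut.divisor_smul_apply]
  exact h _

omit hx in
theorem alpm_mk_eq_iff (A B : Divisor.degZero (K := K) (F := F)) :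
    Pic0.mk A = Pic0.mk B ↔
      (A : Divisor K F) - (B : Divisor K F) ∈ Divisor.principal (K := K) (F := F) := by
  have h1 : Pic0.mk A = Pic0.mk B ↔ Pic0.mk (A - B) = 0 := by
    have h2 : Pic0.mk (A - B) = Pic0.mk A - Pic0.mk B := rfl
    rw [h2, sub_eq_zero]
  rw [h1, Fermat.Agent.T3.t3a_pic0_mk_eq_zero_iff]
  rfl

end Fermat.Agent.Alpha
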