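/-
ALPHA-MOD (helper9), part 2: the frame and the complement vectors of a chart.

Setting of RED (`hg : T3aGood d ℓ x`), `G` a set of semilinear automorphisms of `F / K`, `inf` a
place, `n ≥ 3g - 1`, and finitely many effective divisors `D v` of degree `g`.  If every element of
`L̄(n·red inf)` lifts to a `G`-invariant Gauss-integral element of `L(n·inf)` (`hfun`), there are a
`G`-invariant orthonormal frame `e` of `L(n·inf)` and `G`-invariant integral coordinate vectors
`c i` (`i < g`) whose residues span a common complement of the `L̄(n·red inf - red (D v))`.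
-/
import Fermat.Agent.Lib.Alpha.Mod.Prelim
import Fermat.Agent.Lib.Alpha.Key.Chart
import Fermat.Agent.Lib.Alpha.Chart.Compl

set_option autoImplicit false
set_option linter.style.haveILetI false
set_option linter.unusedSectionVars false

namespace Fermat.Agent.Alpha

open AlgebraicCurve IntermediateField Fermat.Agent.Curve Fermat.Agent.CurveP
  Fermat.Agent.Curve.PlaceAux Fermat.Agent.T1 Fermat.Agent.T3 RRAux

variable {K F k Fb : Type*} [Field K] [Field F] [Algebra K F] [Field k] [Field Fb] [Algebra k Fb]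

/-- semilinearity of the action on `F` -/
theorem alpm_sl_smul (g : SemilinearAut K F) (a : K) (f : F) :
    g • (a • f) = SemilinearAut.baseAut g a • (g • f) := by
  rw [Algebra.smul_def, Algebra.smul_def, smul_mul', SemilinearAut.smul_algebraMap]

/-- the action on a combination of an invariant frame -/
theorem alpm_smul_comb {d : TbBase K F k Fb} {N : ℕ} (Fr : AlpxFrame d N) (g : SemilinearAut K F)
    (he : ∀ j, g • Fr.e j = Fr.e j) (a : Fin N → K) :
    g • Fr.comb a = Fr.comb (fun s => SemilinearAut.baseAut g (a s)) := by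
  rw [AlpxFrame.comb, AlpxFrame.comb, Finset.smul_sum]
  refine Finset.sum_congr rfl fun s _ => ?_
  rw [alpm_sl_smul, he s]

variable [IsAlgClosed K] [IsAlgClosed k]
variable {d : TbBase K F k Fb} {ℓ : ℕ} {x : F}

/-- **the frame and the complement vectors of a chart** -/
theorem alpm_exists_frame (hg : T3aGood d ℓ x) (G : Set (SemilinearAut K F)) (inf : Place K F)
    (n : ℕ)
    (hfun : ∀ t ∈ riemannRochSpace (alprRed hg (alpxPt inf n)),
      ∃ s : F, s ∈ riemannRochSpace (alpxPt inf n) ∧ (∀ g ∈ G, g • s = s) ∧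
        ∃ hO : s ∈ d.Ov, d.res ⟨s, hO⟩ = t)
    {V : Type*} [Finite V] (D : V → Divisor K F) (hD : ∀ v, 0 ≤ D v)
    (hDdeg : ∀ v, Divisor.degree (D v) = genusR K F)
    (hn : 3 * (genusR K F : ℤ) - 1 ≤ n) :
    ∃ (N : ℕ) (Fr : AlpxFrame d N) (c : Fin (genusR K F) → Fin N → ↥d.A),
      Fr.spanK = riemannRochSpace (alpxPt inf n) ∧
      (∀ v (γ : Fin (genusR K F) → k),
        (∑ i, γ i • Fr.combB (fun s => d.resA (c i s))) ∈
          riemannRochSpace (alprRed hg (alpxPt inf n - D v)) → γ = 0) ∧
      (∀ v, Fr.spanB ≤ riemannRochSpace (alprRed hg (alpxPt inf n - D v)) ⊔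
        Submodule.span k (Set.range fun i => Fr.combB (fun s => d.resA (c i s)))) ∧
      (∀ g ∈ G, ∀ j, g • Fr.e j = Fr.e j) ∧
      (∀ g ∈ G, ∀ i s, SemilinearAut.baseAut g ((c i s : ↥d.A) : K) = ((c i s : ↥d.A) : K)) := by
  classical
  haveI := hg.sep
  haveI := hg.sepb'
  have hgen := alpr_genus_eq hg
  have hg0 : (0 : ℤ) ≤ (genusR K F : ℤ) := Int.natCast_nonneg _
  set A : Divisor K F := alpxPt inf n with hA
  have hAdeg : Divisor.degree A = n := alpk_degree_single hg.gen inf n
  set Lb : Submodule k Fb := riemannRochSpace (alprRed hg A) with hLb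
  haveI : FiniteDimensional k ↥Lb := alpr_finiteDimensional_bar hg _
  haveI : FiniteDimensional K ↥(riemannRochSpace A) := alpr_finiteDimensional hg A
  have hres : d.resBall (riemannRochSpace A) = Lb :=
    alpr_resBall_eq hg (by rw [hAdeg]; omega)
  -- the frame
  let B : Module.Basis (Fin (Module.finrank k ↥Lb)) k ↥Lb := Module.finBasis k ↥Lb
  choose e he1 heG heO hres_e using fun s : Fin (Module.finrank k ↥Lb) =>
    hfun ((B s : ↥Lb) : Fb) (B s).2
  have hBli : LinearIndependent k (fun s => ((B s : ↥Lb) : Fb)) :=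
    B.linearIndependent.map' Lb.subtype (Submodule.ker_subtype _)
  let Fr : AlpxFrame d (Module.finrank k ↥Lb) :=
    ⟨e, heO, by
      rw [show (fun s => d.res ⟨e s, heO s⟩) = fun s => ((B s : ↥Lb) : Fb) from funext hres_e]
      exact hBli⟩
  have hFreb : Fr.eb = fun s => ((B s : ↥Lb) : Fb) := funext hres_e
  have hspanB : Fr.spanB = Lb := by
    rw [AlpxFrame.spanB, hFreb,
      show (fun s => ((B s : ↥Lb) : Fb)) = Lb.subtype ∘ B from rfl, Set.range_comp,
      ← Submodule.map_span, B.span_eq, Submodule.map_top, Submodule.range_subtype]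
  have hFr : Fr.spanK = riemannRochSpace A := by
    have hb : ∀ s, e s ∈ d.ball (riemannRochSpace A) := fun s => ⟨he1 s, heO s⟩
    have hsp : d.resBall (riemannRochSpace A) ≤
        Submodule.span k (Set.range fun i => d.res ⟨e i, (hb i).2⟩) := by
      rw [hres]
      exact hspanB.ge
    exact (alpr_basis d (riemannRochSpace A) e hb Fr.indep hsp).2.1
  -- the subspaces `W̄ v`
  set Wb : V → Submodule k Fb := fun v => riemannRochSpace (alprRed hg (A - D v)) with hWb
  have hWle : ∀ v, Wb v ≤ Lb := fun v =>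
    riemannRochSpace_mono (alpr_red_mono hg (sub_le_self A (hD v)))
  have hdimL : (Module.finrank k ↥Lb : ℤ) = n + 1 - genusR K F := by
    have h := alpk_ell_eq hg.genb' (A := alprRed hg A)
      (by rw [alpr_degree_red, hAdeg, ← hgen]; omega)
    rw [alpr_degree_red, hAdeg, ← hgen] at h
    exact h
  have hdimW : ∀ v, (Module.finrank k ↥(Wb v) : ℤ) = n - genusR K F + 1 - genusR K F := by
    intro v
    have hdeg : Divisor.degree (alprRed hg (A - D v)) = n - genusR K F := by
      rw [alpr_degree_red, map_sub, hAdeg, hDdeg]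
    have h := alpk_ell_eq hg.genb' (A := alprRed hg (A - D v)) (by rw [hdeg, ← hgen]; omega)
    rw [hdeg, ← hgen] at h
    exact h
  set Wi : V → Submodule k ↥Lb := fun v => (Wb v).comap Lb.subtype with hWi
  have hW : ∀ v, Module.finrank k ↥(Wi v) + genusR K F = Module.finrank k ↥Lb := by
    intro v
    have h1 : Module.finrank k ↥(Wi v) = Module.finrank k ↥(Wb v) :=
      (Submodule.comapSubtypeEquivOfLe (hWle v)).finrank_eq
    have h2 := hdimL
    have h3 := hdimW v
    omega
  obtain ⟨cb, hcb⟩ := alpg_exists_compl (k := k) (U := ↥Lb) (genusR K F) Wi hW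
  -- lifts of the complement vectors
  choose cF hc1 hcG hcO hres_c using fun i : Fin (genusR K F) =>
    hfun ((cb i : ↥Lb) : Fb) (cb i).2
  have hcball : ∀ i, cF i ∈ d.ball Fr.spanK := fun i =>
    ⟨by rw [hFr]; exact hc1 i, hcO i⟩
  choose c hc using fun i => Fr.mem_ball_iff.mp (hcball i)
  have hcB : ∀ i, Fr.combB (fun s => d.resA (c i s)) = ((cb i : ↥Lb) : Fb) := by
    intro i
    rw [← hres_c i, d.res_congr (hcO i) (hc i)]
    exact (Fr.res_comb (c i)).symm
  have hcBfun : (fun i => Fr.combB (fun s => d.resA (c i s))) = Lb.subtype ∘ cb := funext hcB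
  refine ⟨Module.finrank k ↥Lb, Fr, c, hFr, ?_, ?_, fun g hgG j => heG j g hgG, ?_⟩
  · -- (G2a)
    intro v γ hγ
    have hli := alpg_linearIndependent_of_isCompl (hcb v) (hW v)
    have hu1 : ((∑ i, γ i • cb i : ↥Lb) : Fb) = ∑ i, γ i • Fr.combB (fun s => d.resA (c i s)) := by
      rw [Submodule.coe_sum]
      refine Finset.sum_congr rfl fun i _ => ?_
      rw [Submodule.coe_smul, hcB i]
    have hu2 : (∑ i, γ i • cb i : ↥Lb) ∈ Wi v := by
      show ((∑ i, γ i • cb i : ↥Lb) : Fb) ∈ Wb v
      rw [hu1]
      exact hγ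
    have hu3 : (∑ i, γ i • cb i : ↥Lb) ∈ Submodule.span k (Set.range cb) :=
      Submodule.sum_mem _ fun i _ => Submodule.smul_mem _ _ (Submodule.subset_span ⟨i, rfl⟩)
    have hu0 : (∑ i, γ i • cb i : ↥Lb) = 0 := by
      have := (hcb v).disjoint
      rw [Submodule.disjoint_def] at this
      exact this _ hu2 hu3
    funext i
    exact Fintype.linearIndependent_iff.mp hli γ hu0 i
  · -- (G2b)
    intro v t ht
    rw [hspanB] at ht
    have htop : (⟨t, ht⟩ : ↥Lb) ∈ Wi v ⊔ Submodule.span k (Set.range cb) := by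
      rw [(hcb v).sup_eq_top]
      exact Submodule.mem_top
    obtain ⟨w, hw, u, hu, hwu⟩ := Submodule.mem_sup.mp htop
    have h1 : t = (w : Fb) + (u : Fb) := by
      have := congrArg Subtype.val hwu
      exact this.symm
    rw [h1]
    refine Submodule.add_mem_sup hw ?_
    have h2 : Lb.subtype u ∈ (Submodule.span k (Set.range cb)).map Lb.subtype :=
      Submodule.mem_map_of_mem hu
    rw [Submodule.map_span, ← Set.range_comp, ← hcBfun] at h2
    exact h2
  · -- invariance of the coordinates
    intro g hgG i s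
    have h1 := hcG i g hgG
    rw [hc i, alpm_smul_comb Fr g (fun j => heG j g hgG)] at h1
    exact congrFun (Fr.comb_injective h1) s

end Fermat.Agent.Alpha
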