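/-
ALPHA-MOD (helper9), part 1: the divisors `E0`, `D v` of a chart.

Setting of RED (`hg : T3aGood d ℓ x`), `G` a set of semilinear automorphisms of `F / K`, `V` a finite
group with an injective homomorphism `ι : V →+ Pic⁰(F)`.  If effective divisors of the special fibre
lift to `G`-invariant effective divisors (`hdiv`), there are an effective `G`-invariant divisor `E0`
of degree `g` and effective divisors `D v` (`v : V`) of degree `g` with `[D v - E0] = ι v`, (G1)
`ℓ̄(red (D v)) = 1`, and `g • D v = D w` whenever `ι w = g • ι v`, `g ∈ G`.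
-/
import Fermat.Agent.Lib.Alpha.Mod.Prelim
import Fermat.Agent.Lib.Alpha.Red.Basic
import Fermat.Agent.Lib.Alpha.Chart.Generic

set_option autoImplicit false
set_option linter.style.haveILetI false
set_option linter.unusedSectionVars false

namespace Fermat.Agent.Alpha

open AlgebraicCurve IntermediateField Fermat.Agent.Curve Fermat.Agent.CurveP
  Fermat.Agent.Curve.PlaceAux Fermat.Agent.T1 Fermat.Agent.T3 RRAux

variable {K F k Fb : Type*} [Field K] [Field F] [Algebra K F] [Field k] [Field Fb] [Algebra k Fb]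
variable [IsAlgClosed K] [IsAlgClosed k]
variable {d : TbBase K F k Fb} {ℓ : ℕ} {x : F}

/-- **the divisors of a chart** -/
theorem alpm_exists_points (hg : T3aGood d ℓ x) (G : Set (SemilinearAut K F))
    (hdiv : ∀ Eb : Divisor k Fb, 0 ≤ Eb →
      ∃ E : Divisor K F, 0 ≤ E ∧ alprRed hg E = Eb ∧ ∀ g ∈ G, g • E = E)
    {V : Type*} [AddCommGroup V] [Finite V] (ι : V →+ Pic0 K F) (hι : Function.Injective ι) :
    ∃ (E0 : Divisor K F) (D : V → Divisor K F), 0 ≤ E0 ∧
      Divisor.degree E0 = genusR K F ∧ (∀ g ∈ G, g • E0 = E0) ∧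
      (∀ v, 0 ≤ D v) ∧ (∀ v, Divisor.degree (D v) = genusR K F) ∧ Function.Injective D ∧
      (∀ v w, ∃ h : F, h ≠ 0 ∧ ∀ P : Place K F, P.ord h = (D (v + w) + E0 - D v - D w) P) ∧
      (∀ v, ell (alprRed hg (D v)) = 1) ∧
      (∀ v, ∃ hdeg : D v - E0 ∈ Divisor.degZero (K := K) (F := F),
        Pic0.mk ⟨D v - E0, hdeg⟩ = ι v) ∧
      (∀ g ∈ G, ∀ v w, ι w = g • ι v → g • D v = D w) := by
  classical
  haveI := hg.sep
  haveI := hg.sepb'
  have hgen := alpr_genus_eq hg
  -- representatives
  choose X hX using fun v : V => Pic0.mk_surjective (ι v)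
  have hXdeg : ∀ v, Divisor.degree ((X v : Divisor.degZero (K := K) (F := F)) : Divisor K F) = 0 :=
    fun v => (X v).2
  -- the generic effective divisor on the special fibre
  obtain ⟨Eb, hEb, hEbdeg, -, hEbell⟩ := alpg_exists_generic hg.genb'
    (fun v : V => alprRed hg ((X v : Divisor.degZero (K := K) (F := F)) : Divisor K F))
    (fun v => by rw [alpr_degree_red, hXdeg]) (S := ∅) Set.finite_empty
  obtain ⟨E0, hE0, hE0red, hE0G⟩ := hdiv Eb hEb
  have hE0deg : Divisor.degree E0 = genusR K F := by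
    rw [← alpr_degree_red hg E0, hE0red, hEbdeg, hgen]
  -- `ℓ(X v + E0) = 1`
  have hell : ∀ v, ell (((X v : Divisor.degZero (K := K) (F := F)) : Divisor K F) + E0) = 1 := by
    intro v
    have h1 := alpr_ell_eq_of_le hg
      (((X v : Divisor.degZero (K := K) (F := F)) : Divisor K F) + E0) (by
        rw [map_add, hE0red, hEbell v, map_add, hXdeg, hE0deg]
        norm_num)
    have h2 := h1.1
    rw [map_add, hXdeg, hE0deg] at h2
    have h3 : (ell (((X v : Divisor.degZero (K := K) (F := F)) : Divisor K F) + E0) : ℤ) = 1 := by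
      rw [h2]; ring
    exact_mod_cast h3
  -- the effective representatives
  choose f hf0 hfnn using fun v : V =>
    alpk_exists_effective hg.gen (E := ((X v : Divisor.degZero (K := K) (F := F)) : Divisor K F) + E0)
      (by rw [hell v])
  set D : V → Divisor K F := fun v =>
    ((X v : Divisor.degZero (K := K) (F := F)) : Divisor K F) + E0 + divOf hg.gen (f v) with hD
  have hDsub : ∀ v, D v - E0 =
      ((X v : Divisor.degZero (K := K) (F := F)) : Divisor K F) + divOf hg.gen (f v) := by
    intro v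
    show ((X v : Divisor.degZero (K := K) (F := F)) : Divisor K F) + E0 + divOf hg.gen (f v) - E0 = _
    rw [add_right_comm, add_sub_cancel_right]
  have hDdeg : ∀ v, Divisor.degree (D v) = genusR K F := by
    intro v
    rw [hD]
    simp only [map_add, hXdeg, hE0deg, degree_divOf, zero_add, add_zero]
  have hDdz : ∀ v, D v - E0 ∈ Divisor.degZero (K := K) (F := F) := by
    intro v
    rw [Divisor.mem_degZero, map_sub, hDdeg, hE0deg, sub_self]
  have hDcl : ∀ v, Pic0.mk ⟨D v - E0, hDdz v⟩ = ι v := by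
    intro v
    rw [← hX v, alpm_mk_eq_iff]
    show D v - E0 - ((X v : Divisor.degZero (K := K) (F := F)) : Divisor K F) ∈ _
    rw [hDsub v, add_sub_cancel_left]
    exact alpm_divOf_mem_principal hg.gen (hf0 v)
  refine ⟨E0, D, hE0, hE0deg, hE0G, hfnn, hDdeg, ?_, ?_, ?_, fun v => ⟨hDdz v, hDcl v⟩, ?_⟩
  · -- injectivity
    intro v w hvw
    apply hι
    have h1 : (⟨D v - E0, hDdz v⟩ : Divisor.degZero (K := K) (F := F)) = ⟨D w - E0, hDdz w⟩ :=
      Subtype.ext (by show D v - E0 = D w - E0; rw [hvw])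
    rw [← hDcl v, ← hDcl w, h1]
  · -- the group law
    intro v w
    have h1 : Pic0.mk ⟨D (v + w) - E0, hDdz (v + w)⟩ =
        Pic0.mk (⟨D v - E0, hDdz v⟩ + ⟨D w - E0, hDdz w⟩) := by
      rw [Pic0.mk_add, hDcl, hDcl, hDcl, map_add]
    rw [alpm_mk_eq_iff] at h1
    obtain ⟨h, hh0, hh⟩ := h1
    refine ⟨h, hh0, fun P => ?_⟩
    rw [← hh P]
    show (D (v + w) - E0 - (D v - E0 + (D w - E0))) P = (D (v + w) + E0 - D v - D w) P
    simp only [Finsupp.sub_apply, Finsupp.add_apply]
    ring
  · -- (G1)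
    intro v
    obtain ⟨fb, hfb0, hfb⟩ := alpm_eq_divOf_of_principal hg.genb'
      (alpr_red_principal hg (alpm_divOf_mem_principal hg.gen (hf0 v)))
    rw [hD]
    simp only [map_add]
    rw [hfb, hE0red, ell_add_divOf hg.genb' _ hfb0]
    exact hEbell v
  · -- equivariance
    intro g hgG v w hw
    -- the class of `g • X v` is the class of `X w`
    have h1 : Pic0.mk (SemilinearAut.degZeroSMulHom g (X v)) = Pic0.mk (X w) := by
      rw [← SemilinearAut.pic0_smul_mk, hX v, hX w, hw]
    rw [alpm_mk_eq_iff, SemilinearAut.coe_degZeroSMulHom] at h1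
    obtain ⟨h, hh0, hh⟩ := alpm_eq_divOf_of_principal hg.gen h1
    have hgf0 : g • f v ≠ 0 := by
      rw [SemilinearAut.smul_def]
      exact (map_ne_zero_iff _ (SemilinearAut.toRingAut g).injective).mpr (hf0 v)
    have h2 : g • D v = ((X w : Divisor.degZero (K := K) (F := F)) : Divisor K F) + E0 +
        divOf hg.gen (h * g • f v) := by
      rw [hD]
      simp only [smul_add]
      rw [hE0G g hgG, alpm_smul_divOf hg.gen g (hf0 v), alpm_divOf_mul hg.gen hh0 hgf0, ← hh]
      abel
    rw [h2]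
    exact alpk_unique_effective hg.gen (hell w) (mul_ne_zero hh0 hgf0) (hf0 w)
      (by rw [← h2]; exact alpm_smul_nonneg g (hfnn v)) (hfnn w)

end Fermat.Agent.Alpha
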