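/-
ALPHA-MOD (helper9), part 3: **abstract existence of an invariant chart**.

Setting of RED (`hg : T3aGood d ℓ x`), `G` a set of semilinear automorphisms of `F / K`, `inf` a
place, `V` a finite group with an injective homomorphism `ι : V →+ Pic⁰(F)`.  The two lifting facts of
package INV enter as hypotheses:
* `hfun`: every element of `L̄(n·red inf)` lifts to a `G`-invariant Gauss-integral element of
  `L(n·inf)`;
* `hdiv`: every effective divisor of the special fibre lifts to a `G`-invariant effective divisor.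
Then there is a chart `ch : AlpxChart hg V` at `inf` whose frame, complement coordinates and base
divisor are `G`-invariant, with `[D v - E0] = ι v` and `g • D v = D w` whenever `ι w = g • ι v`.
-/
import Fermat.Agent.Lib.Alpha.Mod.Points
import Fermat.Agent.Lib.Alpha.Mod.FrameAbs

set_option autoImplicit false
set_option linter.style.haveILetI false
set_option linter.unusedSectionVars false

namespace Fermat.Agent.Alpha

open AlgebraicCurve IntermediateField Fermat.Agent.Curve Fermat.Agent.CurveP
  Fermat.Agent.Curve.PlaceAux Fermat.Agent.T1 Fermat.Agent.T3 RRAux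

variable {K F k Fb : Type*} [Field K] [Field F] [Algebra K F] [Field k] [Field Fb] [Algebra k Fb]
variable [IsAlgClosed K] [IsAlgClosed k]
variable {d : TbBase K F k Fb} {ℓ : ℕ} {x : F}

/-- **abstract existence of an invariant chart** -/
theorem alpm_exists_chart_abs (hg : T3aGood d ℓ x) (G : Set (SemilinearAut K F))
    (inf : Place K F)
    (hfun : ∀ n : ℕ, 2 * (genusR K F : ℤ) - 1 ≤ n →
      ∀ t ∈ riemannRochSpace (alprRed hg (alpxPt inf n)),
        ∃ s : F, s ∈ riemannRochSpace (alpxPt inf n) ∧ (∀ g ∈ G, g • s = s) ∧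
          ∃ hO : s ∈ d.Ov, d.res ⟨s, hO⟩ = t)
    (hdiv : ∀ Eb : Divisor k Fb, 0 ≤ Eb →
      ∃ E : Divisor K F, 0 ≤ E ∧ alprRed hg E = Eb ∧ ∀ g ∈ G, g • E = E)
    {V : Type*} [AddCommGroup V] [Finite V] (ι : V →+ Pic0 K F) (hι : Function.Injective ι) :
    ∃ ch : AlpxChart hg V, ch.inf = inf ∧
      (∀ g ∈ G, ∀ j, g • ch.Fr.e j = ch.Fr.e j) ∧
      (∀ g ∈ G, ∀ i s, SemilinearAut.baseAut g ((ch.c i s : ↥d.A) : K) =
        ((ch.c i s : ↥d.A) : K)) ∧
      (∀ g ∈ G, g • ch.E0 = ch.E0) ∧
      (∀ v, ∃ hdeg : ch.D v - ch.E0 ∈ Divisor.degZero (K := K) (F := F),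
        Pic0.mk ⟨ch.D v - ch.E0, hdeg⟩ = ι v) ∧
      (∀ g ∈ G, ∀ v w, ι w = g • ι v → g • ch.D v = ch.D w) := by
  obtain ⟨E0, D, hE0, hE0deg, hE0G, hD, hDdeg, hDinj, hadd, hG1, hcl, hDG⟩ :=
    alpm_exists_points hg G hdiv ι hι
  have hg0 : (0 : ℤ) ≤ (genusR K F : ℤ) := Int.natCast_nonneg _
  obtain ⟨N, Fr, c, hFr, hG2a, hG2b, heG, hcG⟩ :=
    alpm_exists_frame hg G inf (6 * genusR K F + 2)
      (hfun (6 * genusR K F + 2) (by push_cast; omega)) D hD hDdeg (by push_cast; omega)
  exact ⟨{ inf := inf
           n := 6 * genusR K F + 2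
           hn := le_rfl
           E0 := E0
           hE0 := hE0
           hE0deg := hE0deg
           D := D
           hD := hD
           hDdeg := hDdeg
           hDinj := hDinj
           hadd := hadd
           hG1 := hG1
           N := N
           Fr := Fr
           hFr := hFr
           c := c
           hG2a := hG2a
           hG2b := hG2b }, rfl, heG, hcG, hE0G, hcl, hDG⟩

end Fermat.Agent.Alpha
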