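/-
ALPHA-MOD (B) (helper4): equivariance of the chart functions under a semilinear automorphism `g`
of `F / K` fixing the base place, the frame and the complement coordinates of a chart:
if `g • D v = D w` then `m j i w = g (m j i v)`.
-/
import Fermat.Agent.Lib.Alpha.Key.ChartFun
import Fermat.Prelude.Def_AlgebraicCurve_BaseChangeGalois

set_option autoImplicit false
set_option linter.style.haveILetI false
set_option linter.unusedSectionVars false

namespace Fermat.Agent.Alpha

open AlgebraicCurve IntermediateField Fermat.Agent.Curve Fermat.Agent.CurveP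
  Fermat.Agent.Curve.PlaceAux Fermat.Agent.T1 Fermat.Agent.T3 RRAux

section General

variable {K F : Type*} [Field K] [Field F] [Algebra K F]

/-- semilinearity of the action on functions -/
theorem alpm_smul_smul (g : SemilinearAut K F) (a : K) (f : F) :
    g • (a • f) = SemilinearAut.baseAut g a • (g • f) := by
  rw [Algebra.smul_def, Algebra.smul_def, smul_mul', SemilinearAut.smul_algebraMap]

/-- a semilinear automorphism maps `L(D)` into `L(g • D)` -/
theorem alpm_smul_mem_rr (g : SemilinearAut K F) {D : Divisor K F} {f : F}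
    (hf : f ∈ riemannRochSpace D) : g • f ∈ riemannRochSpace (g • D) := by
  rw [mem_riemannRochSpace_iff] at hf ⊢
  intro w
  rcases hf (g⁻¹ • w) with h0 | h1
  · left
    rw [h0, smul_zero]
  · right
    have h2 := SemilinearAut.ord_smul g (g⁻¹ • w) f
    rw [smul_inv_smul] at h2
    rw [h2, SemilinearAut.divisor_smul_apply]
    exact h1

end General

variable {K F k Fb : Type*} [Field K] [Field F] [Algebra K F] [Field k] [Field Fb] [Algebra k Fb]
variable [IsAlgClosed K] [IsAlgClosed k]
variable {d : TbBase K F k Fb} {ℓ : ℕ} {x : F}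
variable {hg : T3aGood d ℓ x} {V : Type*} [AddCommGroup V]

/-- `g` fixes the complement functions -/
theorem alpm_smul_cF (ch : AlpxChart hg V) (g : SemilinearAut K F)
    (he : ∀ j, g • ch.Fr.e j = ch.Fr.e j)
    (hc : ∀ i s, SemilinearAut.baseAut g ((ch.c i s : ↥d.A) : K) = ((ch.c i s : ↥d.A) : K))
    (i : Fin (genusR K F)) : g • ch.cF i = ch.cF i := by
  rw [AlpxChart.cF, AlpxFrame.comb, Finset.smul_sum]
  refine Finset.sum_congr rfl fun s _ => ?_
  rw [alpm_smul_smul, he s, hc i s]

/-- **equivariance of the chart functions** -/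
theorem alpm_m_smul (ch : AlpxChart hg V) (g : SemilinearAut K F) (hinf : g • ch.inf = ch.inf)
    (he : ∀ j, g • ch.Fr.e j = ch.Fr.e j)
    (hc : ∀ i s, SemilinearAut.baseAut g ((ch.c i s : ↥d.A) : K) = ((ch.c i s : ↥d.A) : K))
    {v w : V} (hD : g • ch.D v = ch.D w) (j : Fin ch.N) (i : Fin (genusR K F)) :
    ch.m j i w = SemilinearAut.baseAut g (ch.m j i v) := by
  have h1 := alpm_smul_mem_rr g (ch.m_spec v j)
  have h2 : g • (alpxPt ch.inf ch.n - ch.D v) = alpxPt ch.inf ch.n - ch.D w := by
    rw [smul_sub, hD, alpxPt, SemilinearAut.smul_single, hinf]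
  rw [h2] at h1
  have h3 : g • (ch.Fr.e j - ∑ i, ch.m j i v • ch.cF i) =
      ch.Fr.e j - ∑ i, (fun i => SemilinearAut.baseAut g (ch.m j i v)) i • ch.cF i := by
    rw [smul_sub, he j, Finset.smul_sum]
    congr 1
    refine Finset.sum_congr rfl fun i _ => ?_
    rw [alpm_smul_smul, alpm_smul_cF ch g he hc i]
  rw [h3] at h1
  exact (ch.m_unique w j _ h1 i).symm

end Fermat.Agent.Alpha
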