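/-
ALPHA-MOD (helper9), part (C): **the inertia-equivariant chart in the modular setting**, with the two
lifting facts of package INV as hypotheses (`alpm_exists_chart_of`).

`𝔓 : FFPlace`, `M` a good level (`4 ∣ M` or `9 ∣ M`, `𝔓.p ∤ M`), `F = ℚ̄(X₀(M))`,
`hg = t3a_good_modular 𝔓 M h49 hM`, `V = J₀(M)[m]` with the Galois action `alpfTorsAction`.
-/
import Fermat.Agent.Lib.Alpha.Mod.ChartAbs
import Fermat.Agent.Lib.Alpha.Mod.Equiv
import Fermat.Agent.Lib.Alpha.Fin.Tors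
import Fermat.Agent.Lib.T3.Red.Modular

set_option autoImplicit false
set_option linter.style.haveILetI false
set_option linter.unusedSectionVars false
set_option synthInstance.maxHeartbeats 400000

namespace Fermat.Agent.Alpha

open AlgebraicCurve IntermediateField Fermat.Agent.Curve Fermat.Agent.CurveP
  Fermat.Agent.Curve.PlaceAux Fermat.Agent.T1 Fermat.Agent.T3 RRAux ModularCurve Fermat.Agent.TW

local notation "Qb" => AlgebraicClosure ℚ
local notation "GQ" => (AlgebraicClosure ℚ ≃ₐ[ℚ] AlgebraicClosure ℚ)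

variable (𝔓 : FFPlace) (M : ℕ) [NeZero M]

/-- the semilinear automorphisms of `ℚ̄(X₀(M))` induced by the inertia group of `𝔓` -/
def alpmInertia : Set (SemilinearAut Qb ↥(modularFunctionFieldBar M)) :=
  {g | ∃ τ ∈ 𝔓.I, g = arithmeticGalois (modularFunctionFieldFull M) τ}

theorem alpm_mem_inertia {τ : GQ} (hτ : τ ∈ 𝔓.I) :
    arithmeticGalois (modularFunctionFieldFull M) τ ∈ alpmInertia 𝔓 M := ⟨τ, hτ, rfl⟩

/-- **the inertia-equivariant chart**, from the lifting facts of INV -/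
theorem alpm_exists_chart_of (h49 : 4 ∣ M ∨ 9 ∣ M) (hM : ¬ 𝔓.p ∣ M)
    (inf : Place Qb ↥(modularFunctionFieldBar M))
    (hinf : ∀ τ ∈ 𝔓.I, arithmeticGalois (modularFunctionFieldFull M) τ • inf = inf)
    (hfun : ∀ n : ℕ, 2 * (CurveP.genusR Qb ↥(modularFunctionFieldBar M) : ℤ) - 1 ≤ n →
      ∀ t ∈ riemannRochSpace (alprRed (t3a_good_modular 𝔓 M h49 hM) (alpxPt inf n)),
        ∃ s : ↥(modularFunctionFieldBar M), s ∈ riemannRochSpace (alpxPt inf n) ∧
          (∀ τ ∈ 𝔓.I, arithmeticGalois (modularFunctionFieldFull M) τ • s = s) ∧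
          ∃ hO : s ∈ (t3aBase 𝔓 M hM).Ov, (t3aBase 𝔓 M hM).res ⟨s, hO⟩ = t)
    (hdiv : ∀ Eb : Divisor (IsLocalRing.ResidueField ↥𝔓.P) ↥(tbBarF 𝔓 M), 0 ≤ Eb →
      ∃ E : Divisor Qb ↥(modularFunctionFieldBar M), 0 ≤ E ∧
        alprRed (t3a_good_modular 𝔓 M h49 hM) E = Eb ∧
        ∀ τ ∈ 𝔓.I, arithmeticGalois (modularFunctionFieldFull M) τ • E = E)
    (m : ℤ) [Finite ↥(Submodule.torsionBy ℤ (JZero M) m)] :
    ∃ ch : AlpxChart (t3a_good_modular 𝔓 M h49 hM) ↥(Submodule.torsionBy ℤ (JZero M) m),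
      ∀ τ ∈ 𝔓.I, ∀ (v : ↥(Submodule.torsionBy ℤ (JZero M) m)) (j : Fin ch.N)
        (i : Fin (CurveP.genusR Qb ↥(modularFunctionFieldBar M))),
        ch.m j i (τ • v) = τ (ch.m j i v) := by
  obtain ⟨ch, hch, heG, hcG, -, -, hDG⟩ := alpm_exists_chart_abs (t3a_good_modular 𝔓 M h49 hM)
    (alpmInertia 𝔓 M) inf
    (fun n hn t ht => by
      obtain ⟨s, hs, hsI, hO, hst⟩ := hfun n hn t ht
      refine ⟨s, hs, ?_, hO, hst⟩
      rintro g ⟨τ, hτ, rfl⟩
      exact hsI τ hτ)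
    (fun Eb hEb => by
      obtain ⟨E, hE, hEred, hEI⟩ := hdiv Eb hEb
      refine ⟨E, hE, hEred, ?_⟩
      rintro g ⟨τ, hτ, rfl⟩
      exact hEI τ hτ)
    ((Submodule.torsionBy ℤ (JZero M) m).subtype.toAddMonoidHom)
    (Submodule.injective_subtype _)
  refine ⟨ch, fun τ hτ v j i => ?_⟩
  have hgI := alpm_mem_inertia 𝔓 M hτ
  have hD : arithmeticGalois (modularFunctionFieldFull M) τ • ch.D v = ch.D (τ • v) :=
    hDG _ hgI v (τ • v) rfl
  have h := alpm_m_smul ch (arithmeticGalois (modularFunctionFieldFull M) τ)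
    (by rw [hch]; exact hinf τ hτ) (heG _ hgI) (hcG _ hgI) hD j i
  rw [h]
  rfl

end Fermat.Agent.Alpha
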