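/-
ALPHA-MOD / K4 (helper4): conversion of the KEY output
`(x,y) ↦ m i (x+y) ∈ Algebra.adjoin 𝒱 {m∘pr₁, m∘pr₂}` (a statement about functions on `V × V`)
into the `hcomul` hypothesis of `alph_end` / `alph_end_of_ud` / `alpu_char_mem`
(`m i (x+y) = ∑ a_t(x) b_t(y)` with `a_t, b_t ∈ Algebra.adjoin 𝒱 (range m)`).
-/
import Fermat.Agent.Lib.Alpha.Unram.Char

set_option autoImplicit false
set_option linter.unusedSectionVars false

namespace Fermat.Agent.Alpha

variable {K : Type} [Field K] (𝒱 : ValuationSubring K) {V : Type} [AddCommGroup V] [Fintype V]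

/-- the two families of generators `m∘pr₁`, `m∘pr₂` on `V × V` -/
def alpmGen {ι : Type} (m : ι → V → K) : ι ⊕ ι → V × V → K :=
  Sum.elim (fun i p => m i p.1) (fun i p => m i p.2)

/-- every element of `Algebra.adjoin 𝒱 {m∘pr₁, m∘pr₂}` is of the form `∑ a_t(x) b_t(y)` with
`a_t, b_t ∈ Algebra.adjoin 𝒱 (range m)` -/
theorem alpm_dec_of_mem_adjoin {ι : Type} (m : ι → V → K) {φ : V × V → K}
    (hφ : φ ∈ Algebra.adjoin ↥𝒱 (Set.range (alpmGen m))) :
    AlpuDec 𝒱 (Algebra.adjoin ↥𝒱 (Set.range m)) (fun x y => φ (x, y)) := by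
  induction hφ using Algebra.adjoin_induction with
  | mem f hf =>
    obtain ⟨(i | i), rfl⟩ := hf
    · refine ⟨1, fun _ => m i, fun _ => 1, fun _ => Algebra.subset_adjoin ⟨i, rfl⟩,
        fun _ => Subalgebra.one_mem _, fun x y => ?_⟩
      rw [Fin.sum_univ_one]
      show m i x = m i x * 1
      rw [mul_one]
    · refine ⟨1, fun _ => 1, fun _ => m i, fun _ => Subalgebra.one_mem _,
        fun _ => Algebra.subset_adjoin ⟨i, rfl⟩, fun x y => ?_⟩
      rw [Fin.sum_univ_one]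
      show m i y = 1 * m i y
      rw [one_mul]
  | algebraMap c =>
    refine ⟨1, fun _ => algebraMap ↥𝒱 (V → K) c, fun _ => 1,
      fun _ => Subalgebra.algebraMap_mem _ c, fun _ => Subalgebra.one_mem _, fun x y => ?_⟩
    rw [Fin.sum_univ_one]
    show (c : K) = (c : K) * 1
    rw [mul_one]
  | add f g _ _ hf hg => exact hf.add hg
  | mul f g _ _ hf hg => exact hf.mul hg

/-- **K4**: the adjoin form of the comultiplication condition implies the `∑`-form -/
theorem alpm_hcomul_of_adjoin {ι : Type} (m : ι → V → K) (i : ι)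
    (h : (fun p : V × V => m i (p.1 + p.2)) ∈ Algebra.adjoin ↥𝒱 (Set.range
      (Sum.elim (fun i (p : V × V) => m i p.1) (fun i (p : V × V) => m i p.2)))) :
    ∃ (n : ℕ) (a b : Fin n → V → K),
      (∀ t, a t ∈ Algebra.adjoin ↥𝒱 (Set.range m)) ∧ (∀ t, b t ∈ Algebra.adjoin ↥𝒱 (Set.range m)) ∧
      ∀ x y, m i (x + y) = ∑ t, a t x * b t y :=
  alpm_dec_of_mem_adjoin 𝒱 m h

end Fermat.Agent.Alpha
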