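/-
ALPHA-MOD (helper9), part (D): **a Hopf order of `J₀(M)[m]` from an inertia-equivariant chart**
(`alpm_order_of_chart`): glue of the chart functions (K2), their equivariance ((B)/(C)), the KEY lemma
(as hypothesis `hkey`, in the adjoin form on `V × V`) and the END theorem modulo unramified descent
(`alph_end_of_ud`, UD as hypothesis `hUD`).
-/
import Fermat.Agent.Lib.Alpha.Mod.Chart
import Fermat.Agent.Lib.Alpha.Mod.Comul
import Fermat.Agent.Lib.Alpha.Hopf.EndUd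

set_option autoImplicit false
set_option linter.style.haveILetI false
set_option linter.unusedSectionVars false
set_option synthInstance.maxHeartbeats 400000

namespace Fermat.Agent.Alpha

open AlgebraicCurve IntermediateField Fermat.Agent.Curve Fermat.Agent.CurveP
  Fermat.Agent.Curve.PlaceAux Fermat.Agent.T1 Fermat.Agent.T3 RRAux ModularCurve Fermat.Agent.TW

local notation "Qb" => AlgebraicClosure ℚ
local notation "GQ" => (AlgebraicClosure ℚ ≃ₐ[ℚ] AlgebraicClosure ℚ)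

/-- **a Hopf order from an inertia-equivariant chart** (KEY and UD as hypotheses) -/
theorem alpm_order_of_chart (ℓ : ℕ) [Fact ℓ.Prime] (𝔓 : FFPlace) (h𝔓 : 𝔓.p = ℓ) (M : ℕ)
    [NeZero M] (h49 : 4 ∣ M ∨ 9 ∣ M) (hM : ¬ 𝔓.p ∣ M) (m : ℤ)
    [Fintype ↥(Submodule.torsionBy ℤ (JZero M) m)]
    (ch : AlpxChart (t3a_good_modular 𝔓 M h49 hM) ↥(Submodule.torsionBy ℤ (JZero M) m))
    (hI : ∀ τ ∈ 𝔓.I, ∀ (v : ↥(Submodule.torsionBy ℤ (JZero M) m)) (j : Fin ch.N)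
      (i : Fin (CurveP.genusR Qb ↥(modularFunctionFieldBar M))),
      ch.m j i (τ • v) = τ (ch.m j i v))
    (hkey : ∀ (j : Fin ch.N) (i : Fin (CurveP.genusR Qb ↥(modularFunctionFieldBar M))),
      (fun p : ↥(Submodule.torsionBy ℤ (JZero M) m) × ↥(Submodule.torsionBy ℤ (JZero M) m) =>
        ch.m j i (p.1 + p.2)) ∈ Algebra.adjoin ↥𝔓.P (Set.range (Sum.elim
          (fun (q : Fin ch.N × Fin (CurveP.genusR Qb ↥(modularFunctionFieldBar M)))
            (p : ↥(Submodule.torsionBy ℤ (JZero M) m) × ↥(Submodule.torsionBy ℤ (JZero M) m)) =>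
              ch.m q.1 q.2 p.1)
          (fun (q : Fin ch.N × Fin (CurveP.genusR Qb ↥(modularFunctionFieldBar M)))
            (p : ↥(Submodule.torsionBy ℤ (JZero M) m) × ↥(Submodule.torsionBy ℤ (JZero M) m)) =>
              ch.m q.1 q.2 p.2))))
    (hUD : ∀ φ : ↥(Submodule.torsionBy ℤ (JZero M) m) → Qb, (∀ x, φ x ∈ 𝔓.P) →
      (∀ τ ∈ 𝔓.P.inertiaSubgroupIn ℚ, ∀ x, φ (τ • x) = τ (φ x)) →
      φ ∈ Submodule.span ↥𝔓.P {ψ : ↥(Submodule.torsionBy ℤ (JZero M) m) → Qb |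
        (∀ (σ : GQ) (x : ↥(Submodule.torsionBy ℤ (JZero M) m)), ψ (σ • x) = σ (ψ x)) ∧
        ∀ x, IsIntegral ↥(GaloisRep.ratLocalizedAt ℓ) (ψ x)}) :
    AlphHasOrder ℓ ↥(Submodule.torsionBy ℤ (JZero M) m) := by
  have h𝒱 : 𝔓.P.LiesOverPrime ℓ := h𝔓 ▸ 𝔓.hP
  refine alph_end_of_ud ℓ 𝔓.P h𝒱 hUD
    (fun q : Fin ch.N × Fin (CurveP.genusR Qb ↥(modularFunctionFieldBar M)) => ch.m q.1 q.2)
    (fun q x => ch.m_mem q.1 q.2 x) (fun q τ hτ x => hI τ hτ x q.1 q.2) ?_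
    (fun q => alpm_hcomul_of_adjoin 𝔓.P _ q (hkey q.1 q.2))
  intro x y hxy
  by_contra hcon
  push Not at hcon
  exact hxy (ch.m_sep x y fun j i => hcon (j, i))

end Fermat.Agent.Alpha
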