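/-
ALPHA-MOD (helper9), part (E): **the order at a good level from the three external inputs**
(`alpm_good_of`): INV (lifting facts at an inertia-fixed place `inf`), KEY (adjoin form, for every chart)
and UD as hypotheses; the glue `alpm_exists_chart_of` + `alpm_order_of_chart` at the place
`ffPlaceAt ℓ` and for `m = ℓ^k`.
-/
import Fermat.Agent.Lib.Alpha.Mod.Good
import Fermat.Agent.Lib.Alpha.Fin.Tors
import Fermat.Agent.Lib.TW.Flat.Place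

set_option autoImplicit false
set_option linter.style.haveILetI false
set_option linter.unusedSectionVars false
set_option synthInstance.maxHeartbeats 400000

namespace Fermat.Agent.Alpha

open AlgebraicCurve IntermediateField Fermat.Agent.Curve Fermat.Agent.CurveP
  Fermat.Agent.Curve.PlaceAux Fermat.Agent.T1 Fermat.Agent.T3 RRAux ModularCurve Fermat.Agent.TW

local notation "Qb" => AlgebraicClosure ℚ
local notation "GQ" => (AlgebraicClosure ℚ ≃ₐ[ℚ] AlgebraicClosure ℚ)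

/-- `J₀(M)[ℓ^k]` is finite (the cast form) -/
theorem alpm_finite_pow (M : ℕ) [NeZero M] (ℓ : ℕ) [Fact ℓ.Prime] (k : ℕ) :
    Finite ↥(Submodule.torsionBy ℤ (JZero M) ((ℓ : ℤ) ^ k)) := by
  have hℓ : (ℓ ^ k : ℕ) ≠ 0 := pow_ne_zero k (Fact.out : ℓ.Prime).ne_zero
  have hcast : (((ℓ ^ k : ℕ) : ℕ) : ℤ) = (ℓ : ℤ) ^ k := by push_cast; rfl
  have := alpf_finite M (ℓ ^ k) hℓ
  rwa [hcast] at this

/-- open stabilisers of `J₀(M)[ℓ^k]` (the cast form) -/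
theorem alpm_hopen_pow (M : ℕ) [NeZero M] (ℓ : ℕ) [Fact ℓ.Prime] (k : ℕ)
    (x : ↥(Submodule.torsionBy ℤ (JZero M) ((ℓ : ℤ) ^ k))) :
    ∃ L : IntermediateField ℚ Qb, FiniteDimensional ℚ L ∧
      ∀ σ : GQ, (∀ a ∈ L, σ a = a) → σ • x = x := by
  obtain ⟨L, hL, h⟩ := alpf_open M (ℓ ^ k) (pow_ne_zero k (Fact.out : ℓ.Prime).ne_zero)
    (x : JZero M) (by
      have := (Submodule.mem_torsionBy_iff _ _).mp x.2
      push_cast
      exact this)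
  exact ⟨L, hL, fun σ hσ => Subtype.ext (h σ hσ)⟩

/-- **the order at a good level**, from INV, KEY and UD as hypotheses -/
theorem alpm_good_of (M : ℕ) [NeZero M] (ℓ : ℕ) [Fact ℓ.Prime] (h49 : 4 ∣ M ∨ 9 ∣ M)
    (hM : ¬ ℓ ∣ M) (k : ℕ)
    (inf : Place Qb ↥(modularFunctionFieldBar M))
    (hinf : ∀ τ ∈ (ffPlaceAt ℓ).I, arithmeticGalois (modularFunctionFieldFull M) τ • inf = inf)
    (hfun : ∀ n : ℕ, 2 * (CurveP.genusR Qb ↥(modularFunctionFieldBar M) : ℤ) - 1 ≤ n →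
      ∀ t ∈ riemannRochSpace (alprRed (t3a_good_modular (ffPlaceAt ℓ) M h49 hM) (alpxPt inf n)),
        ∃ s : ↥(modularFunctionFieldBar M), s ∈ riemannRochSpace (alpxPt inf n) ∧
          (∀ τ ∈ (ffPlaceAt ℓ).I, arithmeticGalois (modularFunctionFieldFull M) τ • s = s) ∧
          ∃ hO : s ∈ (t3aBase (ffPlaceAt ℓ) M hM).Ov, (t3aBase (ffPlaceAt ℓ) M hM).res ⟨s, hO⟩ = t)
    (hdiv : ∀ Eb : Divisor (IsLocalRing.ResidueField ↥(ffPlaceAt ℓ).P) ↥(tbBarF (ffPlaceAt ℓ) M),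
      0 ≤ Eb → ∃ E : Divisor Qb ↥(modularFunctionFieldBar M), 0 ≤ E ∧
        alprRed (t3a_good_modular (ffPlaceAt ℓ) M h49 hM) E = Eb ∧
        ∀ τ ∈ (ffPlaceAt ℓ).I, arithmeticGalois (modularFunctionFieldFull M) τ • E = E)
    (hkey : ∀ (ch : AlpxChart (t3a_good_modular (ffPlaceAt ℓ) M h49 hM)
        ↥(Submodule.torsionBy ℤ (JZero M) ((ℓ : ℤ) ^ k)))
      (j : Fin ch.N) (i : Fin (CurveP.genusR Qb ↥(modularFunctionFieldBar M))),
      (fun p : ↥(Submodule.torsionBy ℤ (JZero M) ((ℓ : ℤ) ^ k)) ×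
          ↥(Submodule.torsionBy ℤ (JZero M) ((ℓ : ℤ) ^ k)) =>
        ch.m j i (p.1 + p.2)) ∈ Algebra.adjoin ↥(ffPlaceAt ℓ).P (Set.range (Sum.elim
          (fun (q : Fin ch.N × Fin (CurveP.genusR Qb ↥(modularFunctionFieldBar M)))
            (p : ↥(Submodule.torsionBy ℤ (JZero M) ((ℓ : ℤ) ^ k)) ×
              ↥(Submodule.torsionBy ℤ (JZero M) ((ℓ : ℤ) ^ k))) => ch.m q.1 q.2 p.1)
          (fun (q : Fin ch.N × Fin (CurveP.genusR Qb ↥(modularFunctionFieldBar M)))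
            (p : ↥(Submodule.torsionBy ℤ (JZero M) ((ℓ : ℤ) ^ k)) ×
              ↥(Submodule.torsionBy ℤ (JZero M) ((ℓ : ℤ) ^ k))) => ch.m q.1 q.2 p.2))))
    (hUD : ∀ φ : ↥(Submodule.torsionBy ℤ (JZero M) ((ℓ : ℤ) ^ k)) → Qb,
      (∀ x, φ x ∈ (ffPlaceAt ℓ).P) →
      (∀ τ ∈ (ffPlaceAt ℓ).P.inertiaSubgroupIn ℚ, ∀ x, φ (τ • x) = τ (φ x)) →
      φ ∈ Submodule.span ↥(ffPlaceAt ℓ).P
        {ψ : ↥(Submodule.torsionBy ℤ (JZero M) ((ℓ : ℤ) ^ k)) → Qb |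
          (∀ (σ : GQ) (x : ↥(Submodule.torsionBy ℤ (JZero M) ((ℓ : ℤ) ^ k))),
            ψ (σ • x) = σ (ψ x)) ∧
          ∀ x, IsIntegral ↥(GaloisRep.ratLocalizedAt ℓ) (ψ x)}) :
    AlphHasOrder ℓ ↥(Submodule.torsionBy ℤ (JZero M) ((ℓ : ℤ) ^ k)) := by
  haveI : Finite ↥(Submodule.torsionBy ℤ (JZero M) ((ℓ : ℤ) ^ k)) := alpm_finite_pow M ℓ k
  letI : Fintype ↥(Submodule.torsionBy ℤ (JZero M) ((ℓ : ℤ) ^ k)) := Fintype.ofFinite _
  obtain ⟨ch, hch⟩ := alpm_exists_chart_of (ffPlaceAt ℓ) M h49 hM inf hinf hfun hdiv ((ℓ : ℤ) ^ k)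
  exact alpm_order_of_chart ℓ (ffPlaceAt ℓ) rfl M h49 hM ((ℓ : ℤ) ^ k) ch hch (hkey ch) hUD

end Fermat.Agent.Alpha
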