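/-
ALPHA-MOD (helper9), part (F): **the order at a good level from INV alone** (`alpm_good_of_inv`):
`alpm_good_of` with KEY := `alpx_key` (helper8) and UD := `alpu_span` (helper6) plugged in.
-/
import Fermat.Agent.Lib.Alpha.Mod.GoodOf
import Fermat.Agent.Lib.Alpha.Key.Assemble
import Fermat.Agent.Lib.Alpha.Unram.Span

set_option autoImplicit false
set_option linter.style.haveILetI false
set_option linter.unusedSectionVars false
set_option synthInstance.maxHeartbeats 400000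

namespace Fermat.Agent.Alpha

open AlgebraicCurve IntermediateField Fermat.Agent.Curve Fermat.Agent.CurveP
  Fermat.Agent.Curve.PlaceAux Fermat.Agent.T1 Fermat.Agent.T3 RRAux ModularCurve Fermat.Agent.TW

local notation "Qb" => AlgebraicClosure ℚ
local notation "GQ" => (AlgebraicClosure ℚ ≃ₐ[ℚ] AlgebraicClosure ℚ)

/-- **the order at a good level**, from the INV lifting facts -/
theorem alpm_good_of_inv (M : ℕ) [NeZero M] (ℓ : ℕ) [Fact ℓ.Prime] (h49 : 4 ∣ M ∨ 9 ∣ M)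
    (hM : ¬ ℓ ∣ M) (k : ℕ)
    (inf : Place Qb ↥(modularFunctionFieldBar M))
    (hinf : ∀ τ ∈ (ffPlaceAt ℓ).I, arithmeticGalois (modularFunctionFieldFull M) τ • inf = inf)
    (hfun : ∀ n : ℕ, 2 * (CurveP.genusR Qb ↥(modularFunctionFieldBar M) : ℤ) - 1 ≤ n →
      ∀ t ∈ riemannRochSpace (alprRed (t3a_good_modular (ffPlaceAt ℓ) M h49 hM) (alpxPt inf n)),
        ∃ s : ↥(modularFunctionFieldBar M), s ∈ riemannRochSpace (alpxPt inf n) ∧
          (∀ τ ∈ (ffPlaceAt ℓ).I, arithmeticGalois (modularFunctionFieldFull M) τ • s = s) ∧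
          ∃ hO : s ∈ (t3aBase (ffPlaceAt ℓ) M hM).Ov, (t3aBase (ffPlaceAt ℓ) M hM).res ⟨s, hO⟩ = t)
    (hdiv : ∀ Eb : Divisor (IsLocalRing.ResidueField ↥(ffPlaceAt ℓ).P) ↥(tbBarF (ffPlaceAt ℓ) M),
      0 ≤ Eb → ∃ E : Divisor Qb ↥(modularFunctionFieldBar M), 0 ≤ E ∧
        alprRed (t3a_good_modular (ffPlaceAt ℓ) M h49 hM) E = Eb ∧
        ∀ τ ∈ (ffPlaceAt ℓ).I, arithmeticGalois (modularFunctionFieldFull M) τ • E = E) :
    AlphHasOrder ℓ ↥(Submodule.torsionBy ℤ (JZero M) ((ℓ : ℤ) ^ k)) := by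
  haveI : Finite ↥(Submodule.torsionBy ℤ (JZero M) ((ℓ : ℤ) ^ k)) := alpm_finite_pow M ℓ k
  letI : Fintype ↥(Submodule.torsionBy ℤ (JZero M) ((ℓ : ℤ) ^ k)) := Fintype.ofFinite _
  exact alpm_good_of M ℓ h49 hM k inf hinf hfun hdiv
    (fun ch j i => alpx_key ch j i)
    (fun φ hφ hI => alpu_span ℓ (ffPlaceAt ℓ).P (ffPlaceAt ℓ).hP (alpm_hopen_pow M ℓ k) φ hφ hI)

end Fermat.Agent.Alpha
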