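/-
ALPHA-MOD (helper9), part (G): **the Hopf order of `J₀(M)[ℓ^k]` at a good level** (`alpm_good`):
`alpm_good_of_inv` with the INV facts of helper5 (`alpiInf`, `alpi_inf_fixed`, `alpi_lift_fun`,
`alpi_smul_single_inf`, `alpi_lift_divisor`) plugged in.  This is the hypothesis `hgood` of
`alpf_s19_of_good`.
-/
import Fermat.Agent.Lib.Alpha.Mod.GoodInv
import Fermat.Agent.Lib.Alpha.Inv.Inf
import Fermat.Agent.Lib.Alpha.Inv.LiftPlace

set_option autoImplicit false
set_option linter.style.haveILetI false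
set_option linter.unusedSectionVars false
set_option synthInstance.maxHeartbeats 400000

namespace Fermat.Agent.Alpha

open AlgebraicCurve IntermediateField Fermat.Agent.Curve Fermat.Agent.CurveP
  Fermat.Agent.Curve.PlaceAux Fermat.Agent.T1 Fermat.Agent.T3 RRAux ModularCurve Fermat.Agent.TW

local notation "Qb" => AlgebraicClosure ℚ
local notation "GQ" => (AlgebraicClosure ℚ ≃ₐ[ℚ] AlgebraicClosure ℚ)

/-- **the Hopf order of `J₀(M)[ℓ^k]` over `ℤ_(ℓ)` at a good level `M` prime to `ℓ`** -/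
theorem alpm_good (M : ℕ) [NeZero M] (ℓ : ℕ) [Fact ℓ.Prime] (h49 : 4 ∣ M ∨ 9 ∣ M)
    (hM : ¬ ℓ ∣ M) (k : ℕ) :
    AlphHasOrder ℓ ↥(Submodule.torsionBy ℤ (JZero M) ((ℓ : ℤ) ^ k)) :=
  alpm_good_of_inv M ℓ h49 hM k (alpiInf M)
    (fun τ _ => alpi_inf_fixed M τ)
    (fun n hn t ht => alpi_lift_fun (ffPlaceAt ℓ) M h49 hM (alpxPt (alpiInf M) n)
      (fun σ _ => alpi_smul_single_inf M σ n)
      (by
        haveI := (t3a_good_modular (ffPlaceAt ℓ) M h49 hM).sep
        rw [alpxPt_degree (t3a_good_modular (ffPlaceAt ℓ) M h49 hM).gen]; exact hn) ht)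
    (fun Eb hEb => alpi_lift_divisor (ffPlaceAt ℓ) M h49 hM Eb hEb)

end Fermat.Agent.Alpha
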